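/-
helper75 — P-ORD row 1147 (ORD-GB-N6 N-DIV), part 1: the residual divisor, abstract form on the
generic fibre.

Twin of `Fermat.Agent.H56.FF.residual_abstract` (P-FF, FF-G7-DIV).  Everything is expressed on
the generic fibre: `FibSum r f x n` says that the orders of `f` at the places specialising to
`x` add up to `n` (in the applications `n` is the order at `x` of the reduction of `f` on the
component carrying `x`).  Two pole points `Pa`, `Pb` (one on each component); at the points of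
the special fibre which are not smooth the functions are assumed to be units (`hnode`).
-/
import Fermat.Agent.H56.FF.ResDivAbs

set_option autoImplicit false
set_option linter.style.haveILetI false
set_option linter.unusedSectionVars false
set_option linter.unusedVariables false

noncomputable section

open AlgebraicCurve Fermat.Agent.H27.ESD Fermat.Agent.H94.FF Fermat.Agent.H56.FF

namespace Fermat.Agent.H75.ORD

open Classical

section Fibre

variable {K F X : Type*} [Field K] [Field F] [Algebra K F]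

/-- The orders of `f` at the places specialising to `x` add up to `n`. -/
def FibSum (r : Place K F → X) (f : F) (x : X) (n : ℤ) : Prop :=
  ∀ D : Divisor K F, (∀ P, D P = P.ord f) → Finsupp.mapDomain r D x = n

variable {r : Place K F → X}

theorem FibSum.mul_inv (hdiv : ∀ f : F, f ≠ 0 → ∃ D : Divisor K F, ∀ P, D P = P.ord f)
    {f h : F} (hf : f ≠ 0) (hh : h ≠ 0) {x : X} {n m : ℤ}
    (H1 : FibSum r f x n) (H2 : FibSum r h x m) : FibSum r (f * h⁻¹) x (n - m) := by
  intro D hD
  obtain ⟨D1, hD1⟩ := hdiv f hf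
  obtain ⟨D2, hD2⟩ := hdiv h hh
  have e : D = D1 - D2 := by
    ext P
    rw [hD, Finsupp.sub_apply, hD1, hD2, ord_mul_inv P hf hh]
  rw [e, Finsupp.mapDomain_sub, Finsupp.sub_apply, H1 D1 hD1, H2 D2 hD2]

/-- **general fibre lemma** -/
theorem fib_ord_eq_of_le (hdiv : ∀ f : F, f ≠ 0 → ∃ D : Divisor K F, ∀ P, D P = P.ord f)
    {f : F} (hf : f ≠ 0) {x : X} {n : ℤ} (H : FibSum r f x n) (C : Divisor K F)
    (hle : ∀ P, r P = x → C P ≤ P.ord f) (hsum : Finsupp.mapDomain r C x = n)
    (P : Place K F) (hP : r P = x) : P.ord f = C P := by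
  obtain ⟨D, hD⟩ := hdiv f hf
  have h1 := H D hD
  have h2 := Fermat.Agent.H18.rv_le_mapDomain r (D - C) x P hP (fun P1 h => by
    rw [Finsupp.sub_apply, hD]
    have := hle P1 h
    omega)
  simp only [Finsupp.mapDomain_sub, Finsupp.sub_apply] at h2
  rw [h1, hsum, sub_self, hD] at h2
  have := hle P hP
  omega

theorem fib_ord_eq_single (hdiv : ∀ f : F, f ≠ 0 → ∃ D : Divisor K F, ∀ P, D P = P.ord f)
    {f : F} (hf : f ≠ 0) {x : X} {n : ℤ} (H : FibSum r f x n) (P₀ : Place K F)
    (hP₀ : r P₀ = x) (hle : ∀ P, r P = x → (if P₀ = P then n else 0) ≤ P.ord f)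
    (P : Place K F) (hP : r P = x) : P.ord f = if P₀ = P then n else 0 := by
  have h1 := fib_ord_eq_of_le hdiv hf H (Finsupp.single P₀ n)
    (fun P1 h1 => by rw [Finsupp.single_apply]; exact hle P1 h1)
    (by rw [Finsupp.mapDomain_single, hP₀, Finsupp.single_eq_same]) P hP
  rw [h1, Finsupp.single_apply]

theorem fib_ord_eq_zero (hdiv : ∀ f : F, f ≠ 0 → ∃ D : Divisor K F, ∀ P, D P = P.ord f)
    {f : F} (hf : f ≠ 0) {x : X} (H : FibSum r f x 0) (hnp : ∀ P, r P = x → 0 ≤ P.ord f)
    (P : Place K F) (hP : r P = x) : P.ord f = 0 := by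
  have h1 := fib_ord_eq_of_le hdiv hf H 0
    (fun P1 h1 => by rw [Finsupp.zero_apply]; exact hnp P1 h1)
    (by rw [Finsupp.mapDomain_zero, Finsupp.zero_apply]) P hP
  rw [h1, Finsupp.zero_apply]

/-- existence of a zero in a fibre of total order one -/
theorem fib_exists_zero (hdiv : ∀ f : F, f ≠ 0 → ∃ D : Divisor K F, ∀ P, D P = P.ord f)
    {f : F} (hf : f ≠ 0) {x : X} (H : FibSum r f x 1) (hnp : ∀ P, r P = x → 0 ≤ P.ord f) :
    ∃ P₀, r P₀ = x ∧ 1 ≤ P₀.ord f := by
  by_contra hcon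
  simp only [not_exists, not_and, not_le] at hcon
  obtain ⟨D, hD⟩ := hdiv f hf
  have h2 := H D hD
  have h3 := Fermat.Agent.H18.rv_mapDomain_nonneg_fibre r (-D) x (fun P hP => by
    rw [Finsupp.neg_apply, hD]
    have := hcon P hP
    have := hnp P hP
    omega)
  rw [← Finsupp.mapDomain.addMonoidHom_apply, map_neg, Finsupp.mapDomain.addMonoidHom_apply,
    Finsupp.neg_apply, h2] at h3
  omega

theorem ord_ge_of_mem_rr_two (Pa Pb : Place K F) (n : ℕ) {f : F}
    (hf : f ∈ riemannRochSpace (Finsupp.single Pa (n : ℤ) + Finsupp.single Pb (n : ℤ)))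
    (P : Place K F) :
    -((if Pa = P then (n : ℤ) else 0) + (if Pb = P then (n : ℤ) else 0)) ≤ P.ord f := by
  rcases (mem_riemannRochSpace_iff.mp hf) P with h | h
  · rw [h, Place.ord_zero]
    split_ifs <;> omega
  · rw [Finsupp.add_apply, Finsupp.single_apply, Finsupp.single_apply] at h
    exact h

/-- **N-DIV, abstract form.** -/
theorem residual_nodal_abstract {g : ℕ}
    (hdiv : ∀ f : F, f ≠ 0 → ∃ D : Divisor K F, ∀ P, D P = P.ord f)
    (Sm : X → Prop)
    (Qs : Fin g → X) (hQinj : Function.Injective Qs) (hQsm : ∀ i, Sm (Qs i))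
    (O : Fin g → Place K F) (t : Fin g → F)
    (hO : ∀ i, r (O i) = Qs i) (ht0 : ∀ i, t i ≠ 0) (ht1 : ∀ i, 1 ≤ (O i).ord (t i))
    (ht2 : ∀ i, FibSum r (t i) (Qs i) 1)
    (ht3 : ∀ i P1, r P1 = Qs i → 0 ≤ P1.ord (t i))
    (Pa Pb : Place K F) (hab : r Pa ≠ r Pb) (hsa : Sm (r Pa)) (hsb : Sm (r Pb))
    (nn : Fin g ⊕ Fin g → ℕ) (v : Fin g ⊕ Fin g → F) (hv0 : ∀ a, v a ≠ 0)
    (ov : Fin g ⊕ Fin g → X → ℤ)
    (hov : ∀ a x, Sm x → FibSum r (v a) x (ov a x))
    (Zx : Fin g ⊕ Fin g → Finset X)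
    (hvL : ∀ a, v a ∈ riemannRochSpace
      (Finsupp.single Pa (nn a : ℤ) + Finsupp.single Pb (nn a : ℤ)))
    (hqne : ∀ i, Qs i ≠ r Pa ∧ Qs i ≠ r Pb)
    (hpole : ∀ a, ov a (r Pa) = -(nn a : ℤ) ∧ ov a (r Pb) = -(nn a : ℤ))
    (hzmain : ∀ a, ov a (Qs (jproj a)) = 1)
    (hzextra : ∀ a, ∀ x ∈ Zx a, ov a x = 1)
    (hzelse : ∀ a x, Sm x → x ≠ r Pa → x ≠ r Pb → x ≠ Qs (jproj a) → x ∉ Zx a → ov a x = 0)
    (hsmx : ∀ a, ∀ x ∈ Zx a, Sm x)
    (hinfnm : ∀ a, r Pa ∉ Zx a ∧ r Pb ∉ Zx a)
    (hqsnm : ∀ a i, Qs i ∉ Zx a)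
    (hdisj : ∀ a b, a ≠ b → Disjoint (Zx a) (Zx b))
    (Pt : Fin g ⊕ Fin g → Place K F) (hPt : ∀ a, r (Pt a) = Qs (jproj a))
    (hvPt : ∀ a, 1 ≤ (Pt a).ord (v a))
    (F2 : F) (hF2ne : F2 ≠ 0)
    (hF2L : F2 ∈ riemannRochSpace
      (Finsupp.single Pa (((∑ a, nn a : ℕ)) : ℤ) + Finsupp.single Pb (((∑ a, nn a : ℕ)) : ℤ)))
    (hoF : ∀ x, Sm x → FibSum r F2 x (∑ a, ov a x))
    (hnode : ∀ P, ¬ Sm (r P) → P.ord F2 = 0 ∧ ∀ a, P.ord (v a) = 0)
    (hF2O : ∀ i, 1 ≤ (O i).ord F2)
    (hF2E : ∀ a, ∀ x ∈ Zx a, ∀ P1, r P1 = x → 1 ≤ P1.ord (v a) → 1 ≤ P1.ord F2) :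
    ∃ P'' : Fin g → Place K F, (∀ i, r (P'' i) = Qs i) ∧
      (∀ i, 1 ≤ (P'' i).ord (F2 * (t i)⁻¹)) ∧
      ∃ w : F, w ≠ 0 ∧ ∀ P : Place K F,
        P.ord w = ((∑ i, (Finsupp.single (P'' i) (1 : ℤ) - Finsupp.single (O i) 1)
          - ∑ a, (Finsupp.single (Pt a) (1 : ℤ) - Finsupp.single (O (jproj a)) 1) :
            Divisor K F)) P := by
  have hprodF : ∏ a, v a ≠ 0 := Finset.prod_ne_zero_iff.mpr fun a _ => hv0 a
  -- no poles away from `Pa`, `Pb`
  have hnpv : ∀ a P, P ≠ Pa → P ≠ Pb → 0 ≤ P.ord (v a) := fun a P h1 h2 => by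
    have h := ord_ge_of_mem_rr_two Pa Pb (nn a) (hvL a) P
    rwa [if_neg (Ne.symm h1), if_neg (Ne.symm h2), add_zero, neg_zero] at h
  have hnpF : ∀ P, P ≠ Pa → P ≠ Pb → 0 ≤ P.ord F2 := fun P h1 h2 => by
    have h := ord_ge_of_mem_rr_two Pa Pb _ hF2L P
    rwa [if_neg (Ne.symm h1), if_neg (Ne.symm h2), add_zero, neg_zero] at h
  have hneA : ∀ P, r P ≠ r Pa → P ≠ Pa := fun P h h' => h (by rw [h'])
  have hneB : ∀ P, r P ≠ r Pb → P ≠ Pb := fun P h h' => h (by rw [h'])
  -- the orders at `Qs i`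
  have hordQs : ∀ a i, ov a (Qs i) = if jproj a = i then 1 else 0 := by
    intro a i
    split_ifs with h
    · rw [← h]
      exact hzmain a
    · exact hzelse a (Qs i) (hQsm i) (hqne i).1 (hqne i).2 (fun h' => h (hQinj h').symm)
        (hqsnm a i)
  have hsumQs : ∀ i, ∑ a, ov a (Qs i) = 2 := by
    intro i
    simp only [hordQs]
    rw [sum_jproj_ite i (fun _ => (1 : ℤ))]
    norm_num
  -- the coordinate `t i` on the disc of `Qs i`
  have hordt : ∀ i P, r P = Qs i → P.ord (t i) = if O i = P then 1 else 0 := by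
    intro i P hP
    refine fib_ord_eq_single hdiv (ht0 i) (ht2 i) (O i) (hO i) (fun P1 hP1 => ?_) P hP
    split_ifs with h
    · rw [← h]
      exact ht1 i
    · exact ht3 i P1 hP1
  -- `G i = F2 / t i`
  have hGne : ∀ i, F2 * (t i)⁻¹ ≠ 0 := fun i => mul_ne_zero hF2ne (inv_ne_zero (ht0 i))
  have hGfs : ∀ i, FibSum r (F2 * (t i)⁻¹) (Qs i) 1 := by
    intro i
    have h := FibSum.mul_inv hdiv hF2ne (ht0 i) (hoF (Qs i) (hQsm i)) (ht2 i)
    rw [hsumQs i] at h
    have e : (2 : ℤ) - 1 = 1 := by norm_num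
    rwa [e] at h
  have hGF : ∀ (i : Fin g) (P : Place K F),
      P.ord (F2 * (t i)⁻¹) = P.ord F2 - P.ord (t i) := fun i P =>
    ord_mul_inv P hF2ne (ht0 i)
  have hGnp : ∀ i P, r P = Qs i → 0 ≤ P.ord (F2 * (t i)⁻¹) := by
    intro i P hP
    rw [hGF, hordt i P hP]
    split_ifs with h
    · have h1 := hF2O i
      rw [h] at h1
      omega
    · have h1 := hnpF P (hneA P (by rw [hP]; exact (hqne i).1))
        (hneB P (by rw [hP]; exact (hqne i).2))
      omega
  choose P'' hP''r hP''1 using fun i => fib_exists_zero hdiv (hGne i) (hGfs i) (hGnp i)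
  have hordG : ∀ i P, r P = Qs i → P.ord (F2 * (t i)⁻¹) = if P'' i = P then 1 else 0 := by
    intro i P hP
    refine fib_ord_eq_single hdiv (hGne i) (hGfs i) (P'' i) (hP''r i) (fun P1 hP1 => ?_) P hP
    split_ifs with h
    · rw [← h]
      exact hP''1 i
    · exact hGnp i P1 hP1
  have hordF2Qs : ∀ i P, r P = Qs i →
      P.ord F2 = (if P'' i = P then 1 else 0) + (if O i = P then 1 else 0) := by
    intro i P hP
    have h1 := hGF i P
    rw [hordG i P hP, hordt i P hP] at h1
    omega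
  -- the `v a` on the disc of `Qs i`
  have hordvQs : ∀ a i P, r P = Qs i →
      P.ord (v a) = if jproj a = i then (if Pt a = P then 1 else 0) else 0 := by
    intro a i P hP
    have hnp : ∀ P1, r P1 = Qs i → 0 ≤ P1.ord (v a) := fun P1 hP1 =>
      hnpv a P1 (hneA P1 (by rw [hP1]; exact (hqne i).1))
        (hneB P1 (by rw [hP1]; exact (hqne i).2))
    have hfs := hov a (Qs i) (hQsm i)
    rw [hordQs] at hfs
    by_cases h : jproj a = i
    · rw [if_pos h] at hfs ⊢
      refine fib_ord_eq_single hdiv (hv0 a) hfs (Pt a) (by rw [hPt, h]) (fun P1 hP1 => ?_) P hP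
      split_ifs with h1
      · rw [← h1]
        exact hvPt a
      · exact hnp P1 hP1
    · rw [if_neg h] at hfs ⊢
      exact fib_ord_eq_zero hdiv (hv0 a) hfs hnp P hP
  -- the discs of the two poles
  have hordvA : ∀ a P, r P = r Pa →
      P.ord (v a) = if Pa = P then -(nn a : ℤ) else 0 := by
    intro a P hP
    have hfs := hov a (r Pa) hsa
    rw [(hpole a).1] at hfs
    refine fib_ord_eq_single hdiv (hv0 a) hfs Pa rfl (fun P1 hP1 => ?_) P hP
    have h := ord_ge_of_mem_rr_two Pa Pb (nn a) (hvL a) P1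
    have hb : Pb ≠ P1 := fun h' => hab (by rw [← hP1, h'])
    rw [if_neg hb, add_zero] at h
    split_ifs at h ⊢ <;> omega
  have hordvB : ∀ a P, r P = r Pb →
      P.ord (v a) = if Pb = P then -(nn a : ℤ) else 0 := by
    intro a P hP
    have hfs := hov a (r Pb) hsb
    rw [(hpole a).2] at hfs
    refine fib_ord_eq_single hdiv (hv0 a) hfs Pb rfl (fun P1 hP1 => ?_) P hP
    have h := ord_ge_of_mem_rr_two Pa Pb (nn a) (hvL a) P1
    have ha : Pa ≠ P1 := fun h' => hab (by rw [← hP1, h'])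
    rw [if_neg ha, zero_add] at h
    split_ifs at h ⊢ <;> omega
  have hsumA : ∑ a, ov a (r Pa) = -((∑ a, nn a : ℕ) : ℤ) := by
    rw [Finset.sum_congr rfl fun a _ => (hpole a).1]
    push_cast
    rw [Finset.sum_neg_distrib]
  have hsumB : ∑ a, ov a (r Pb) = -((∑ a, nn a : ℕ) : ℤ) := by
    rw [Finset.sum_congr rfl fun a _ => (hpole a).2]
    push_cast
    rw [Finset.sum_neg_distrib]
  have hordFA : ∀ P, r P = r Pa →
      P.ord F2 = if Pa = P then -((∑ a, nn a : ℕ) : ℤ) else 0 := by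
    intro P hP
    have hfs := hoF (r Pa) hsa
    rw [hsumA] at hfs
    refine fib_ord_eq_single hdiv hF2ne hfs Pa rfl (fun P1 hP1 => ?_) P hP
    have h := ord_ge_of_mem_rr_two Pa Pb _ hF2L P1
    have hb : Pb ≠ P1 := fun h' => hab (by rw [← hP1, h'])
    rw [if_neg hb, add_zero] at h
    split_ifs at h ⊢ <;> omega
  have hordFB : ∀ P, r P = r Pb →
      P.ord F2 = if Pb = P then -((∑ a, nn a : ℕ) : ℤ) else 0 := by
    intro P hP
    have hfs := hoF (r Pb) hsb
    rw [hsumB] at hfs
    refine fib_ord_eq_single hdiv hF2ne hfs Pb rfl (fun P1 hP1 => ?_) P hP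
    have h := ord_ge_of_mem_rr_two Pa Pb _ hF2L P1
    have ha : Pa ≠ P1 := fun h' => hab (by rw [← hP1, h'])
    rw [if_neg ha, zero_add] at h
    split_ifs at h ⊢ <;> omega
  -- the discs of the extra zeros
  have hZxA : ∀ a₀ x, x ∈ Zx a₀ → x ≠ r Pa := by
    rintro a₀ x hx rfl
    exact (hinfnm a₀).1 hx
  have hZxB : ∀ a₀ x, x ∈ Zx a₀ → x ≠ r Pb := by
    rintro a₀ x hx rfl
    exact (hinfnm a₀).2 hx
  have hordZx : ∀ a₀ x, x ∈ Zx a₀ → ∀ a, ov a x = if a = a₀ then 1 else 0 := by
    intro a₀ x hx a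
    split_ifs with h
    · subst h
      exact hzextra a x hx
    · refine hzelse a x (hsmx a₀ x hx) (hZxA a₀ x hx) (hZxB a₀ x hx) ?_ ?_
      · rintro rfl
        exact hqsnm a₀ _ hx
      · intro hmem
        exact Finset.disjoint_left.mp (hdisj a a₀ h) hmem hx
  have hEx : ∀ a₀ x, x ∈ Zx a₀ → ∃ E, r E = x ∧ 1 ≤ E.ord (v a₀) := by
    intro a₀ x hx
    have hfs := hov a₀ x (hsmx a₀ x hx)
    rw [hordZx a₀ x hx, if_pos rfl] at hfs
    exact fib_exists_zero hdiv (hv0 a₀) hfs
      (fun P1 hP1 => hnpv a₀ P1 (hneA P1 (by rw [hP1]; exact hZxA a₀ x hx))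
        (hneB P1 (by rw [hP1]; exact hZxB a₀ x hx)))
  -- conclusion
  refine ⟨P'', hP''r, hP''1, ?_⟩
  refine ⟨F2 * (∏ a, v a)⁻¹, mul_ne_zero hF2ne (inv_ne_zero hprodF), fun P => ?_⟩
  rw [ord_mul_inv P hF2ne hprodF, ord_prod_of_ne_zero P _ _ (fun a _ => hv0 a)]
  simp only [Finsupp.sub_apply, Finsupp.finsetSum_apply, Finsupp.single_apply]
  by_cases hQ : ∃ i, r P = Qs i
  · obtain ⟨i, hi⟩ := hQ
    rw [hordF2Qs i P hi]
    simp only [hordvQs _ i P hi]
    rw [sum_jproj_ite i (fun a => if Pt a = P then (1 : ℤ) else 0)]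
    have e1 : ∑ j, ((if P'' j = P then (1 : ℤ) else 0) - (if O j = P then 1 else 0)) =
        (if P'' i = P then 1 else 0) - (if O i = P then 1 else 0) := by
      refine Finset.sum_eq_single i (fun j _ hji => ?_) (fun h => absurd (Finset.mem_univ i) h)
      have h1 : P'' j ≠ P := fun h => hji (hQinj (by rw [← hP''r j, h, hi]))
      have h2 : O j ≠ P := fun h => hji (hQinj (by rw [← hO j, h, hi]))
      rw [if_neg h1, if_neg h2, sub_zero]
    have e2 : ∑ a, ((if Pt a = P then (1 : ℤ) else 0) - (if O (jproj a) = P then 1 else 0)) =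
        ∑ a, (if jproj a = i then
          ((if Pt a = P then (1 : ℤ) else 0) - (if O i = P then 1 else 0)) else 0) := by
      refine Finset.sum_congr rfl fun a _ => ?_
      by_cases h : jproj a = i
      · rw [if_pos h, h]
      · rw [if_neg h]
        have h1 : Pt a ≠ P := fun h' => h (hQinj (by rw [← hPt a, h', hi]))
        have h2 : O (jproj a) ≠ P := fun h' => h (hQinj (by rw [← hO (jproj a), h', hi]))
        rw [if_neg h1, if_neg h2, sub_zero]
    rw [e1, e2, sum_jproj_ite i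
      (fun a => (if Pt a = P then (1 : ℤ) else 0) - (if O i = P then 1 else 0))]
    ring
  · have hQ' : ∀ i, r P ≠ Qs i := fun i h => hQ ⟨i, h⟩
    have e1 : ∑ j, ((if P'' j = P then (1 : ℤ) else 0) - (if O j = P then 1 else 0)) = 0 :=
      Finset.sum_eq_zero fun j _ => by
        have h1 : P'' j ≠ P := fun h => hQ' j (by rw [← h, hP''r])
        have h2 : O j ≠ P := fun h => hQ' j (by rw [← h, hO])
        rw [if_neg h1, if_neg h2, sub_zero]
    have e2 : ∑ a, ((if Pt a = P then (1 : ℤ) else 0) -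
        (if O (jproj a) = P then 1 else 0)) = 0 :=
      Finset.sum_eq_zero fun a _ => by
        have h1 : Pt a ≠ P := fun h => hQ' (jproj a) (by rw [← h, hPt])
        have h2 : O (jproj a) ≠ P := fun h => hQ' (jproj a) (by rw [← h, hO])
        rw [if_neg h1, if_neg h2, sub_zero]
    rw [e1, e2, sub_zero]
    by_cases hsm : Sm (r P)
    · by_cases hA : r P = r Pa
      · rw [hordFA P hA]
        simp only [hordvA _ P hA]
        split_ifs with h
        · push_cast
          rw [Finset.sum_neg_distrib]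
          ring
        · simp
      · by_cases hB : r P = r Pb
        · rw [hordFB P hB]
          simp only [hordvB _ P hB]
          split_ifs with h
          · push_cast
            rw [Finset.sum_neg_distrib]
            ring
          · simp
        · have hnp : ∀ a P1, r P1 = r P → 0 ≤ P1.ord (v a) := fun a P1 hP1 =>
            hnpv a P1 (hneA P1 (by rw [hP1]; exact hA)) (hneB P1 (by rw [hP1]; exact hB))
          have hnpF' : ∀ P1, r P1 = r P → 0 ≤ P1.ord F2 := fun P1 hP1 =>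
            hnpF P1 (hneA P1 (by rw [hP1]; exact hA)) (hneB P1 (by rw [hP1]; exact hB))
          by_cases hz : ∃ a₀, r P ∈ Zx a₀
          · obtain ⟨a₀, ha₀⟩ := hz
            obtain ⟨E, hEr, hE1⟩ := hEx a₀ (r P) ha₀
            have hva : ∀ a, P.ord (v a) = if a = a₀ then (if E = P then 1 else 0) else 0 := by
              intro a
              have hfs := hov a (r P) hsm
              rw [hordZx a₀ (r P) ha₀] at hfs
              by_cases h : a = a₀
              · subst h
                rw [if_pos rfl] at hfs ⊢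
                refine fib_ord_eq_single hdiv (hv0 a) hfs E hEr (fun P1 hP1 => ?_) P rfl
                split_ifs with h1
                · rw [← h1]
                  exact hE1
                · exact hnp a P1 hP1
              · rw [if_neg h] at hfs ⊢
                exact fib_ord_eq_zero hdiv (hv0 a) hfs (hnp a) P rfl
            have hF2 : P.ord F2 = if E = P then 1 else 0 := by
              have hfs := hoF (r P) hsm
              simp only [hordZx a₀ (r P) ha₀] at hfs
              rw [Finset.sum_ite_eq', if_pos (Finset.mem_univ a₀)] at hfs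
              refine fib_ord_eq_single hdiv hF2ne hfs E hEr (fun P1 hP1 => ?_) P rfl
              split_ifs with h1
              · rw [← h1]
                exact hF2E a₀ (r P) ha₀ E hEr hE1
              · exact hnpF' P1 hP1
            rw [hF2]
            simp only [hva]
            rw [Finset.sum_ite_eq', if_pos (Finset.mem_univ a₀), sub_self]
          · have hz' : ∀ a, r P ∉ Zx a := fun a h => hz ⟨a, h⟩
            have h0 : ∀ a, ov a (r P) = 0 := fun a =>
              hzelse a (r P) hsm hA hB (fun h => hQ' (jproj a) h) (hz' a)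
            have hva : ∀ a, P.ord (v a) = 0 := fun a => by
              have hfs := hov a (r P) hsm
              rw [h0 a] at hfs
              exact fib_ord_eq_zero hdiv (hv0 a) hfs (hnp a) P rfl
            have hF2 : P.ord F2 = 0 := by
              have hfs := hoF (r P) hsm
              simp only [h0, Finset.sum_const_zero] at hfs
              exact fib_ord_eq_zero hdiv hF2ne hfs hnpF' P rfl
            rw [hF2]
            simp only [hva]
            simp
    · obtain ⟨h1, h2⟩ := hnode P hsm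
      rw [h1]
      simp only [h2]
      simp

end Fibre

end Fermat.Agent.H75.ORD

end
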