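/-
helper75 — P-ORD row 1147 (ORD-GB-N6 N-DIV), part 2: `residualDivisorN : ResidualDivisorN`.

Instantiation of `residual_nodal_abstract` at a nodal reduction:
* smooth points: the conservation law (M2) (`NodalRvHyp.smooth_oo`, `smooth_zero`) gives the
  fibre sums from the orders of the reductions (`fibSum_of_red`);
* nodes: a doubly integral function with nonzero reductions, of order `0` at the branch of the
  node on `C_∞` and without pole over the node, has no zero over the node
  (`ord_eq_zero_over_node`, from (M3) `NodalRvHyp.node_lt` with `c = 1`);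
* the values `α a` lie in the maximal ideal (`residue_eq_zero_of_simple`, value lemma), so
  `u a - α a` and `u a` have the same reductions on both components.
-/
import Fermat.Agent.H75.ORD.ResDivAbsN
import Fermat.Agent.H94.ORD.JacInterfaces
import Fermat.Agent.H56.FF.JacGeneric

set_option autoImplicit false
set_option synthInstance.maxHeartbeats 400000
set_option linter.style.haveILetI false
set_option linter.unusedSectionVars false
set_option linter.unusedVariables false

noncomputable section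

open AlgebraicCurve ModularCurve Fermat.Agent.H27.ESD

namespace Fermat.Agent.H75.ORD

open Fermat.Agent.H10.FF Fermat.Agent.H72.FF Fermat.Agent.H18.ORD Fermat.Agent.H92.ORD
  Fermat.Agent.H94.FF Fermat.Agent.H94.ORD

open Classical

section Generic

variable {K F X : Type*} [Field K] [Field F] [Algebra K F] {r : Place K F → X}

/-- a function with a nonzero fibre sum is not constant -/
theorem ne_const_of_fibSum {f : F} {x : X} {n : ℤ} (H : FibSum r f x n) (hn : n ≠ 0) (c : K) :
    f ≠ algebraMap K F c := by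
  intro h
  have h1 := H 0 (fun P => by
    rw [h, Fermat.Agent.H23.ord_algebraMap, Finsupp.zero_apply])
  rw [Finsupp.mapDomain_zero, Finsupp.zero_apply] at h1
  exact hn h1.symm

end Generic

section Nodal

variable {N p : ℕ} {A : ValuationSubring Qb} {Foo F0 : Type} [Field Foo] [Field F0]
  [Algebra (kRes A) Foo] [Algebra (kRes A) F0] {ι : Type} {G : NodalData N A Foo F0 ι}

/-- the specialisation of a place is a smooth point or a node -/
theorem isSm_or_node (H : NodalRvHyp p G) (P : Place Qb (FLb N)) :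
    IsSm G (G.r P) ∨ ∃ ν, G.r P = NPt.node ν := by
  cases h : G.r P with
  | oo Q => exact Or.inl (H.r_oo P Q h)
  | zero Q => exact Or.inl (H.r_zero P Q h)
  | node ν => exact Or.inr ⟨ν, rfl⟩

/-- the conservation law (M2) for doubly integral functions, at all smooth points -/
theorem fibSum_of_red (H : NodalRvHyp p G) (f : nodalO G) (hoo : redOoO G f ≠ 0)
    (hz : red0O G f ≠ 0) (x : NP A Foo F0 ι) (hx : IsSm G x) :
    FibSum G.r (f : FLb N) x (ordPair (redOoO G f) (red0O G f) x) := by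
  intro D hD
  cases x with
  | oo Q => exact H.smooth_oo (Subring.inclusion inf_le_left f) hoo D hD Q hx
  | zero Q => exact H.smooth_zero (Subring.inclusion inf_le_right f) hz D hD Q hx
  | node ν => exact absurd hx id

/-- **no zero over a node** for a doubly integral function whose reductions do not vanish, of
order `0` at the branch of the node on `C_∞`, without pole over the node -/
theorem ord_eq_zero_over_node (H : NodalRvHyp p G) (f : nodalO G) (hoo : redOoO G f ≠ 0)
    (hz : red0O G f ≠ 0) (ν : ι) (hord : (G.nOo ν).ord (redOoO G f) = 0)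
    (hnp : ∀ P, G.r P = NPt.node ν → 0 ≤ P.ord (f : FLb N))
    (P : Place Qb (FLb N)) (hP : G.r P = NPt.node ν) : P.ord (f : FLb N) = 0 := by
  by_contra hne
  have hpos : 0 < P.ord (f : FLb N) := lt_of_le_of_ne (hnp P hP) (Ne.symm hne)
  have h := (H.node_lt (Subring.inclusion inf_le_left f) (Subring.inclusion inf_le_right f) 1
    hoo hz (by rw [map_one, one_mul]; rfl) ν hnp ⟨P, hP, hpos⟩).1
  have e : G.redOo (Subring.inclusion inf_le_left f) = redOoO G f := rfl
  rw [e, hord, zpow_zero, mul_one, ValuationSubring.mem_nonunits_iff, map_one] at h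
  exact lt_irrefl _ h

/-- a value of a doubly integral function at a point of the disc of a simple zero of its
reduction lies in the maximal ideal -/
theorem residue_eq_zero_of_simple (H : NodalRvHyp p G)
    (hpd : HasPrincipalDivisors Qb (FLb N)) (f : nodalO G) (hoo : redOoO G f ≠ 0)
    (hz : red0O G f ≠ 0) (x : NP A Foo F0 ι) (hx : IsSm G x)
    (h1 : ordPair (redOoO G f) (red0O G f) x = 1)
    (hnp : ∀ P1, G.r P1 = x → 0 ≤ P1.ord (f : FLb N))
    (P : Place Qb (FLb N)) (hP : G.r P = x) (α : A)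
    (hα : HasValue P (f : FLb N) (α : Qb)) : IsLocalRing.residue A α = 0 := by
  have hfs := fibSum_of_red H f hoo hz x hx
  rw [h1] at hfs
  have hune := ne_const_of_fibSum hfs one_ne_zero
  have hα1 : 1 ≤ P.ord ((f : FLb N) - algebraMap Qb (FLb N) (α : Qb)) :=
    hα.resolve_left (hune _)
  cases x with
  | oo Q =>
    obtain ⟨hcA, hv⟩ := (H.compOo hpd).value_lemma (Subring.inclusion inf_le_left f) Q hx hnp
      P hP (α : Qb) hα1 (hune _)
    exact Fermat.Agent.H56.FF.const_eq_zero_of_ord_one Q h1 hv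
  | zero Q =>
    obtain ⟨hcA, hv⟩ := (H.compZero hpd).value_lemma (Subring.inclusion inf_le_right f) Q hx
      hnp P hP (α : Qb) hα1 (hune _)
    exact Fermat.Agent.H56.FF.const_eq_zero_of_ord_one Q h1 hv
  | node ν => exact absurd hx id

/-- **[N-DIV]** (row 1147), unconditional. -/
theorem residualDivisorN : Fermat.Agent.H94.ORD.ResidualDivisorN := by
  intro N p A Foo F0 _ _ _ _ ι G g hS O t hsys Poo P0 Qoo Q0 nn u Zx hPoo hP0 huL hAux Pt α hPt
    hα F2 hF2L hred hF2O hF2E
  obtain ⟨γ, hγ, hredOo, hred0⟩ := hred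
  have hpd := hS.pkgL.principal
  have hdiv : ∀ f : FLb N, f ≠ 0 → ∃ D : Divisor Qb (FLb N), ∀ P, D P = P.ord f :=
    fun f hf => by
      obtain ⟨D, hD, -⟩ := hpd.exists_divisor f hf
      exact ⟨D, hD⟩
  have H := hS.rv
  -- smooth points
  have hQsm : ∀ i, IsSm G (G.r (O i)) := fun i => by
    rcases isSm_or_node H (O i) with h | ⟨ν, h⟩
    · exact h
    · exact absurd h ((hsys.coord i).smooth ν)
  have hsa : IsSm G (G.r Poo) := by
    rw [hPoo]
    exact hAux.sm_oo
  have hsb : IsSm G (G.r P0) := by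
    rw [hP0]
    exact hAux.sm_zero
  have hab : G.r Poo ≠ G.r P0 := by
    rw [hPoo, hP0]
    exact fun h => by cases h
  have hnodeA : ∀ P ν, G.r P = NPt.node ν → P ≠ Poo := by
    rintro P ν h rfl
    rw [hPoo] at h
    cases h
  have hnodeB : ∀ P ν, G.r P = NPt.node ν → P ≠ P0 := by
    rintro P ν h rfl
    rw [hP0] at h
    cases h
  have hqne : ∀ i, G.r (O i) ≠ G.r Poo ∧ G.r (O i) ≠ G.r P0 := fun i => by
    rw [hPoo, hP0]
    exact hAux.qinf_ne i
  -- reductions of `u a`
  have huoo : ∀ a, redOoO G (u a) ≠ 0 := fun a => (hAux.ne_zero a).1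
  have huz : ∀ a, red0O G (u a) ≠ 0 := fun a => (hAux.ne_zero a).2
  have hnpu : ∀ a P, P ≠ Poo → P ≠ P0 → 0 ≤ P.ord (u a : FLb N) := fun a P h1 h2 => by
    have h := ord_ge_of_mem_rr_two Poo P0 (nn a) (huL a) P
    rwa [if_neg (Ne.symm h1), if_neg (Ne.symm h2), add_zero, neg_zero] at h
  -- the residues of the `α a` vanish
  have hα0 : ∀ a, IsLocalRing.residue A (α a) = 0 := fun a =>
    residue_eq_zero_of_simple H hpd (u a) (huoo a) (huz a) (G.r (O (jproj a))) (hQsm _)
      (hAux.zero_main a)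
      (fun P1 hP1 => hnpu a P1
        (by rintro rfl; exact (hqne _).1 hP1.symm)
        (by rintro rfl; exact (hqne _).2 hP1.symm))
      (Pt a) (hPt a) (α a) (hα a)
  -- constants
  have hcmem : ∀ a : A, algebraMap Qb (FLb N) (a : Qb) ∈ nodalO G := fun a =>
    Subring.mem_inf.mpr ⟨(H.const_oo _).mpr a.2, (H.const_zero _).mpr a.2⟩
  have hcoo : ∀ a : A, redOoO G ⟨_, hcmem a⟩ =
      algebraMap (kRes A) Foo (IsLocalRing.residue A a) := fun a => H.red_const_oo a _
  have hcz : ∀ a : A, red0O G ⟨_, hcmem a⟩ =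
      algebraMap (kRes A) F0 (IsLocalRing.residue A a) := fun a => H.red_const_zero a _
  -- the functions `v a = u a - α a`
  obtain ⟨v, hvdef⟩ : ∃ v : Fin g ⊕ Fin g → nodalO G, ∀ a, v a = u a - ⟨_, hcmem (α a)⟩ :=
    ⟨fun a => u a - ⟨_, hcmem (α a)⟩, fun a => rfl⟩
  have hvoo : ∀ a, redOoO G (v a) = redOoO G (u a) := fun a => by
    rw [hvdef, map_sub, hcoo, hα0, map_zero, sub_zero]
  have hvz : ∀ a, red0O G (v a) = red0O G (u a) := fun a => by
    rw [hvdef, map_sub, hcz, hα0, map_zero, sub_zero]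
  have hvcoe : ∀ a, (v a : FLb N) = (u a : FLb N) - algebraMap Qb (FLb N) (α a : Qb) :=
    fun a => by rw [hvdef]; rfl
  have hv0 : ∀ a, (v a : FLb N) ≠ 0 := fun a h => by
    have h1 : v a = 0 := Subtype.ext h
    have h2 := hvoo a
    rw [h1, map_zero] at h2
    exact huoo a h2.symm
  have hov : ∀ a x, IsSm G x →
      FibSum G.r (v a : FLb N) x (ordPair (redOoO G (u a)) (red0O G (u a)) x) := by
    intro a x hx
    have h := fibSum_of_red H (v a) (by rw [hvoo]; exact huoo a) (by rw [hvz]; exact huz a) x hx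
    rwa [hvoo, hvz] at h
  have hvL : ∀ a, (v a : FLb N) ∈ riemannRochSpace
      (Finsupp.single Poo (nn a : ℤ) + Finsupp.single P0 (nn a : ℤ)) := fun a => by
    rw [hvcoe a]
    refine Submodule.sub_mem _ (huL a) ?_
    rw [mem_riemannRochSpace_iff]
    intro w
    right
    rw [Fermat.Agent.H23.ord_algebraMap, Finsupp.add_apply, Finsupp.single_apply,
      Finsupp.single_apply]
    split_ifs <;> omega
  have hufs1 : ∀ a, FibSum G.r (u a : FLb N) (G.r (O (jproj a))) 1 := fun a => by
    have h := fibSum_of_red H (u a) (huoo a) (huz a) _ (hQsm (jproj a))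
    rwa [hAux.zero_main a] at h
  have hvPt : ∀ a, 1 ≤ (Pt a).ord (v a : FLb N) := fun a => by
    rw [hvcoe a]
    exact (hα a).resolve_left (ne_const_of_fibSum (hufs1 a) one_ne_zero _)
  -- the coordinates
  have ht0 : ∀ i, t i ≠ 0 := fun i h => by
    have h1 := (hsys.coord i).zero
    rw [h, Place.ord_zero] at h1
    omega
  have ht2 : ∀ i, FibSum G.r (t i) (G.r (O i)) 1 := by
    intro i D hD
    cases hr : G.r (O i) with
    | oo Q =>
      obtain ⟨h, h1⟩ := (hsys.coord i).simple_oo Q hr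
      have hne : G.redOo ⟨t i, h⟩ ≠ 0 := fun h0 => by
        rw [h0, Place.ord_zero] at h1
        exact zero_ne_one h1
      rw [← h1]
      exact H.smooth_oo ⟨t i, h⟩ hne D hD Q (H.r_oo (O i) Q hr)
    | zero Q =>
      obtain ⟨h, h1⟩ := (hsys.coord i).simple_zero Q hr
      have hne : G.red0 ⟨t i, h⟩ ≠ 0 := fun h0 => by
        rw [h0, Place.ord_zero] at h1
        exact zero_ne_one h1
      rw [← h1]
      exact H.smooth_zero ⟨t i, h⟩ hne D hD Q (H.r_zero (O i) Q hr)
    | node ν => exact absurd hr ((hsys.coord i).smooth ν)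
  -- the function `F2`
  have hprodoo : ∏ a, redOoO G (u a) ≠ 0 := Finset.prod_ne_zero_iff.mpr fun a _ => huoo a
  have hprodz : ∏ a, red0O G (u a) ≠ 0 := Finset.prod_ne_zero_iff.mpr fun a _ => huz a
  have hF2oo : redOoO G F2 ≠ 0 := by
    rw [hredOo]
    exact mul_ne_zero ((map_ne_zero _).mpr hγ) hprodoo
  have hF2z : red0O G F2 ≠ 0 := by
    rw [hred0]
    exact mul_ne_zero ((map_ne_zero _).mpr hγ) hprodz
  have hF2ne : (F2 : FLb N) ≠ 0 := fun h => by
    have h1 : F2 = 0 := Subtype.ext h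
    rw [h1, map_zero] at hF2oo
    exact hF2oo rfl
  have hordoo : ∀ Q : Place (kRes A) Foo,
      Q.ord (redOoO G F2) = ∑ a, Q.ord (redOoO G (u a)) := fun Q => by
    rw [hredOo, Fermat.Agent.H56.FF.ord_const_mul Q hγ hprodoo,
      Fermat.Agent.H56.FF.ord_prod_of_ne_zero Q _ _ (fun a _ => huoo a)]
  have hordz : ∀ Q : Place (kRes A) F0,
      Q.ord (red0O G F2) = ∑ a, Q.ord (red0O G (u a)) := fun Q => by
    rw [hred0, Fermat.Agent.H56.FF.ord_const_mul Q hγ hprodz,
      Fermat.Agent.H56.FF.ord_prod_of_ne_zero Q _ _ (fun a _ => huz a)]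
  have hoF : ∀ x, IsSm G x →
      FibSum G.r (F2 : FLb N) x (∑ a, ordPair (redOoO G (u a)) (red0O G (u a)) x) := by
    intro x hx
    have h := fibSum_of_red H F2 hF2oo hF2z x hx
    cases x with
    | oo Q =>
      have e : ordPair (redOoO G F2) (red0O G F2) (NPt.oo Q : NP A Foo F0 ι) =
          ∑ a, ordPair (redOoO G (u a)) (red0O G (u a)) (NPt.oo Q : NP A Foo F0 ι) :=
        hordoo Q
      rwa [e] at h
    | zero Q =>
      have e : ordPair (redOoO G F2) (red0O G F2) (NPt.zero Q : NP A Foo F0 ι) =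
          ∑ a, ordPair (redOoO G (u a)) (red0O G (u a)) (NPt.zero Q : NP A Foo F0 ι) :=
        hordz Q
      rwa [e] at h
    | node ν => exact absurd hx id
  have hnpF : ∀ P, P ≠ Poo → P ≠ P0 → 0 ≤ P.ord (F2 : FLb N) := fun P h1 h2 => by
    have h := ord_ge_of_mem_rr_two Poo P0 _ hF2L P
    rwa [if_neg (Ne.symm h1), if_neg (Ne.symm h2), add_zero, neg_zero] at h
  have hnpv : ∀ a P, P ≠ Poo → P ≠ P0 → 0 ≤ P.ord (v a : FLb N) := fun a P h1 h2 => by
    have h := ord_ge_of_mem_rr_two Poo P0 (nn a) (hvL a) P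
    rwa [if_neg (Ne.symm h1), if_neg (Ne.symm h2), add_zero, neg_zero] at h
  -- the nodes
  have hnode : ∀ P, ¬ IsSm G (G.r P) →
      P.ord (F2 : FLb N) = 0 ∧ ∀ a, P.ord (v a : FLb N) = 0 := by
    intro P hP
    rcases isSm_or_node H P with h | ⟨ν, hν⟩
    · exact absurd h hP
    · refine ⟨ord_eq_zero_over_node H F2 hF2oo hF2z ν ?_
        (fun P1 hP1 => hnpF P1 (hnodeA P1 ν hP1) (hnodeB P1 ν hP1)) P hν, fun a =>
        ord_eq_zero_over_node H (v a) (by rw [hvoo]; exact huoo a) (by rw [hvz]; exact huz a) ν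
          (by rw [hvoo]; exact (hAux.node_unit a ν).1)
          (fun P1 hP1 => hnpv a P1 (hnodeA P1 ν hP1) (hnodeB P1 ν hP1)) P hν⟩
      rw [hordoo]
      exact Finset.sum_eq_zero fun a _ => (hAux.node_unit a ν).1
  -- the zeros of `F2`
  have hzero : ∀ P1 : Place Qb (FLb N), HasValue P1 (F2 : FLb N) 0 →
      1 ≤ P1.ord (F2 : FLb N) := by
    intro P1 h
    rcases h with h | h
    · rw [map_zero] at h
      exact absurd h hF2ne
    · rwa [map_zero, sub_zero] at h
  have hF2O' : ∀ i, 1 ≤ (O i).ord (F2 : FLb N) := fun i => hzero _ (hF2O i)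
  have hF2E' : ∀ a, ∀ x ∈ Zx a, ∀ P1, G.r P1 = x →
      1 ≤ P1.ord (v a : FLb N) → 1 ≤ P1.ord (F2 : FLb N) := by
    intro a x hx P1 hP1 h
    refine hzero P1 (hF2E a x hx P1 hP1 (Or.inr ?_))
    rw [map_zero, sub_zero, ← hvcoe a]
    exact h
  obtain ⟨P'', h1, h2, w, hw0, hw⟩ := residual_nodal_abstract (r := G.r) hdiv (IsSm G)
    (fun i => G.r (O i)) hsys.inj hQsm O t (fun i => rfl) ht0 (fun i => (hsys.coord i).zero)
    ht2 (fun i => (hsys.coord i).nopole) Poo P0 hab hsa hsb nn (fun a => (v a : FLb N)) hv0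
    (fun a x => ordPair (redOoO G (u a)) (red0O G (u a)) x) hov Zx hvL hqne
    (fun a => ⟨by rw [hPoo]; exact (hAux.pole a).1, by rw [hP0]; exact (hAux.pole a).2⟩)
    hAux.zero_main hAux.zero_extra
    (fun a x hx h1 h2 h3 h4 => hAux.zero_else a x hx (by rwa [hPoo] at h1)
      (by rwa [hP0] at h2) h3 h4)
    hAux.sm_extra
    (fun a => ⟨by rw [hPoo]; exact (hAux.qinf_notMem a).1,
      by rw [hP0]; exact (hAux.qinf_notMem a).2⟩)
    hAux.qs_notMem hAux.disj Pt hPt hvPt (F2 : FLb N) hF2ne hF2L hoF hnode hF2O' hF2E'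
  refine ⟨P'', h1, fun i => Or.inr ?_, w, hw0, hw⟩
  rw [map_zero, sub_zero, div_eq_mul_inv]
  exact h2 i

end Nodal

end Fermat.Agent.H75.ORD

end
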